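import Fermat.Agent.S59.H601.PeuLocal

/-!
# S59 / NMP / SEL (helper139), part (F) 1: local coordinates of a peu ramifié finite level

Abstract setting (generalising `Fermat.Agent.S59.H601.localCoordDatum601` from elementary abelian
`p`-groups to arbitrary finite abelian groups, with additive characters `AddChar M ℚ̄`):
`M` a finite `G_ℚ`-module, `P` a valuation subring of `ℚ̄` over `p`, `L ⊆ M` a subgroup such that
the inertia group `I` of `P` acts trivially on `M / L` and *cyclotomically* on `L`
(`χ (σ l) = σ (χ l)` for every character `χ`), and such that every Kummer cocycle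
`σ ↦ χ (σ c - c)` of `I` is the coboundary of a `P`-unit.

* `localCoordDatum139 : Nonempty (LocalCoordDatum p M act)` with coordinates
  `Ψ m (c, χ) = [m - c ∈ L] · χ (m - c) · B_{c,χ}`.
-/

set_option autoImplicit false
set_option linter.unusedSectionVars false
set_option linter.unusedVariables false
set_option linter.style.haveILetI false

namespace Fermat.Agent.S59.NMP.H139

open Fermat.Agent.S19
open Fermat.Agent.S59.H601

section Char

variable {M : Type} [AddCommGroup M]

/-- The values of an additive character of a finite group are roots of unity. -/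
theorem addChar_pow_card139 [Finite M] (χ : AddChar M Qb) (x : M) :
    χ x ^ Nat.card M = 1 := by
  rw [← AddChar.map_nsmul_eq_pow]
  have h : Nat.card M • x = 0 := by
    have := card_nsmul_eq_zero' (G := M) (x := x)
    exact this
  rw [h, AddChar.map_zero_eq_one]

theorem addChar_ne_zero139 (χ : AddChar M Qb) (x : M) : χ x ≠ 0 := by
  intro h
  have h1 : χ (x + -x) = χ x * χ (-x) := AddChar.map_add_eq_mul χ x (-x)
  rw [add_neg_cancel, AddChar.map_zero_eq_one, h, zero_mul] at h1
  exact one_ne_zero h1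

theorem addChar_val139 [Finite M] (P : ValuationSubring Qb) (χ : AddChar M Qb) (x : M) :
    P.valuation (χ x) = 1 := by
  have h1 : P.valuation (χ x) ^ Nat.card M = 1 := by
    rw [← map_pow, addChar_pow_card139, map_one]
  have hne : Nat.card M ≠ 0 := Nat.card_pos.ne'
  exact (pow_eq_one_iff_of_nonneg zero_le hne).mp h1

theorem addChar_mem139 [Finite M] (P : ValuationSubring Qb) (χ : AddChar M Qb) (x : M) :
    χ x ∈ P :=
  mem_of_val_eq_one601 P (addChar_val139 P χ x)

theorem addChar_sub139 (χ : AddChar M Qb) (x y : M) : χ (x - y) = χ x / χ y := by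
  rw [eq_div_iff (addChar_ne_zero139 χ y), ← AddChar.map_add_eq_mul, sub_add_cancel]

/-- Additive characters of a finite group with values in `ℚ̄` form a finite set. -/
theorem finite_addChar139 [Finite M] : Finite (AddChar M Qb) := by
  have hinj : Function.Injective (fun χ : AddChar M Qb =>
      (AddChar.toMonoidHomEquiv χ).toHomUnits) := by
    intro χ χ' h
    apply AddChar.toMonoidHomEquiv.injective
    apply MonoidHom.ext
    intro a
    have := congrArg (fun f : Multiplicative M →* Qbˣ => ((f a : Qbˣ) : Qb)) h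
    simpa using this
  exact Finite.of_injective _ hinj

/-- Additive characters of a finite group with values in `ℚ̄` separate points. -/
theorem addChar_separates139 [Finite M] (x : M) (hx : ∀ χ : AddChar M Qb, χ x = 1) : x = 0 := by
  by_contra hne
  have hexp : Monoid.exponent (Multiplicative M) ≠ 0 := Monoid.exponent_ne_zero_of_finite
  haveI : NeZero ((Monoid.exponent (Multiplicative M) : ℕ) : Qb) := ⟨by exact_mod_cast hexp⟩
  have hne' : Multiplicative.ofAdd x ≠ 1 := by
    intro h
    exact hne (by simpa using congrArg Multiplicative.toAdd h)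
  obtain ⟨φ, hφ⟩ := CommGroup.exists_apply_ne_one_of_hasEnoughRootsOfUnity
    (Multiplicative M) Qb hne'
  let ψ : Multiplicative M →* Qb := (Units.coeHom Qb).comp φ
  have h1 := hx (AddChar.toMonoidHomEquiv.symm ψ)
  rw [AddChar.toMonoidHomEquiv_symm_apply] at h1
  apply hφ
  apply Units.ext
  exact h1

end Char

section Coord

variable {p : ℕ} [Fact p.Prime] {M : Type} [AddCommGroup M]

open Classical in
/-- The coordinates. -/
noncomputable def psi139 (L : AddSubgroup M) (Bf : M → AddChar M Qb → Qb) (m : M)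
    (i : M × AddChar M Qb) : Qb :=
  if m - i.1 ∈ L then i.2 (m - i.1) * Bf i.1 i.2 else 0

theorem psi139_of_mem {L : AddSubgroup M} (Bf : M → AddChar M Qb → Qb) {m c : M}
    (χ : AddChar M Qb) (h : m - c ∈ L) :
    psi139 L Bf m (c, χ) = χ (m - c) * Bf c χ := by
  unfold psi139
  rw [if_pos h]

theorem psi139_of_not_mem {L : AddSubgroup M} (Bf : M → AddChar M Qb → Qb) {m c : M}
    (χ : AddChar M Qb) (h : m - c ∉ L) :
    psi139 L Bf m (c, χ) = 0 := by
  unfold psi139
  rw [if_neg h]

variable [Finite M] {act : GalQ → M → M}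
  (hact : IsContAddAction act) (P : ValuationSubring Qb) (hP : (p : Qb) ∈ P.nonunits)
  (L : AddSubgroup M)
  (hI : ∀ σ, IsInertiaAt P σ → ∀ m, act σ m - m ∈ L)
  (hL : ∀ σ, IsInertiaAt P σ → ∀ (χ : AddChar M Qb), ∀ l ∈ L, χ (act σ l) = σ (χ l))
  (hpeu : ∀ (χ : AddChar M Qb) (c : M), ∃ B : Qb, P.valuation B = 1 ∧
      ∀ σ, IsInertiaAt P σ → σ B = χ (act σ c - c) * B)

include hI in
theorem act_sub_mem_iff139 (c m : M) {σ : GalQ} (hσ : IsInertiaAt P σ) :
    act σ m - c ∈ L ↔ m - c ∈ L := by
  have h1 : act σ m - c = (act σ m - m) + (m - c) := by abel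
  rw [h1]
  exact L.add_mem_cancel_left (hI σ hσ m)

include hact hI hL in
/-- Translation by an element of `L`. -/
theorem chi_act139 (χ : AddChar M Qb) (c m : M) (hm : m - c ∈ L) {σ : GalQ}
    (hσ : IsInertiaAt P σ) :
    χ (act σ m - c) = σ (χ (m - c)) * χ (act σ c - c) := by
  have h1 : act σ m - c = act σ (m - c) + (act σ c - c) := by
    rw [act_sub601 hact]
    abel
  rw [h1, AddChar.map_add_eq_mul, hL σ hσ χ _ hm]

include hact hP hI hL hpeu in
/-- **The local coordinate datum of a peu ramifié finite level.** -/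
theorem localCoordDatum139 : Nonempty (LocalCoordDatum p M act) := by
  classical
  have hp : p.Prime := Fact.out
  choose Bf hBfv hBfeq using hpeu
  have hBf0 : ∀ χ c, Bf χ c ≠ 0 := fun χ c => ne_zero_of_val_eq_one601 P (hBfv χ c)
  have hBfP : ∀ χ c, Bf χ c ∈ P := fun χ c => mem_of_val_eq_one601 P (hBfv χ c)
  have hBfinv : ∀ χ c, (Bf χ c)⁻¹ ∈ P := fun χ c => inv_mem_of_val_eq_one601 P (hBfv χ c)
  have hchP : ∀ (χ : AddChar M Qb) (x : M), χ x ∈ P := fun χ x => addChar_mem139 P χ x
  -- the coordinates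
  let Bg : M → AddChar M Qb → Qb := fun c χ => Bf χ c
  let Ψ : M → M × AddChar M Qb → Qb := psi139 L Bg
  have hΨP : ∀ m i, Ψ m i ∈ P := by
    rintro m ⟨c, χ⟩
    by_cases h : m - c ∈ L
    · show psi139 L Bg m (c, χ) ∈ P
      rw [psi139_of_mem Bg χ h]
      exact P.mul_mem _ _ (hchP _ _) (hBfP χ c)
    · show psi139 L Bg m (c, χ) ∈ P
      rw [psi139_of_not_mem Bg χ h]
      exact P.zero_mem
  haveI hfinHom : Finite (AddChar M Qb) := finite_addChar139
  refine ⟨{ V := P
            ell_mem := hP
            ι := M × AddChar M Qb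
            fin := inferInstance
            Ψ := Ψ
            inj := ?_
            integral := hΨP
            equivariant := ?_
            add_mem := ?_ }⟩
  · -- injectivity
    intro m m' hmm
    have hkey : ∀ χ : AddChar M Qb, m' - m ∈ L ∧ χ (m' - m) = 1 := by
      intro χ
      have h1 : Ψ m (m, χ) = Bf χ m := by
        show psi139 L Bg m (m, χ) = _
        rw [psi139_of_mem Bg χ (by rw [sub_self]; exact L.zero_mem), sub_self,
          AddChar.map_zero_eq_one, one_mul]
      have h2 : Ψ m' (m, χ) = Bf χ m := by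
        rw [← congrFun hmm (m, χ)]
        exact h1
      by_cases h : m' - m ∈ L
      · refine ⟨h, ?_⟩
        have h3 : psi139 L Bg m' (m, χ) = Bf χ m := h2
        rw [psi139_of_mem Bg χ h] at h3
        have h5 : χ (m' - m) * Bf χ m = 1 * Bf χ m := by rw [one_mul]; exact h3
        exact mul_right_cancel₀ (hBf0 χ m) h5
      · exfalso
        have h3 : psi139 L Bg m' (m, χ) = Bf χ m := h2
        rw [psi139_of_not_mem Bg χ h] at h3
        exact hBf0 χ m h3.symm
    have h0 : m' - m = 0 := addChar_separates139 _ fun χ => (hkey χ).2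
    exact (sub_eq_zero.mp h0).symm
  · -- equivariance under inertia
    rintro σ hσ m ⟨c, χ⟩
    show psi139 L Bg (act σ m) (c, χ) = σ (psi139 L Bg m (c, χ))
    by_cases h : m - c ∈ L
    · have h' : act σ m - c ∈ L := (act_sub_mem_iff139 P L hI c m hσ).mpr h
      rw [psi139_of_mem Bg χ h, psi139_of_mem Bg χ h', map_mul,
        chi_act139 hact P L hI hL χ c m h hσ]
      show _ * _ * Bf χ c = _ * σ (Bf χ c)
      rw [hBfeq χ c σ hσ]
      ring
    · have h' : act σ m - c ∉ L := fun h' => h ((act_sub_mem_iff139 P L hI c m hσ).mp h')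
      rw [psi139_of_not_mem Bg χ h, psi139_of_not_mem Bg χ h', map_zero]
  · -- the addition law
    rintro ⟨c, χ⟩
    letI : Fintype (M ⧸ L) := Fintype.ofFinite _
    let r : M ⧸ L → M := fun q => Quotient.out q
    have hr : ∀ m : M, m - r (QuotientAddGroup.mk m) ∈ L := by
      intro m
      have h1 : (QuotientAddGroup.mk (r (QuotientAddGroup.mk m)) : M ⧸ L) =
          QuotientAddGroup.mk m := Quotient.out_eq _
      have h2 := QuotientAddGroup.eq.mp h1
      have h3 : m - r (QuotientAddGroup.mk m) = -r (QuotientAddGroup.mk m) + m := by abel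
      rw [h3]
      exact h2
    have hr' : ∀ (m : M) (q : M ⧸ L), m - r q ∈ L → q = QuotientAddGroup.mk m := by
      intro m q h
      have h1 : (QuotientAddGroup.mk (r q) : M ⧸ L) = q := Quotient.out_eq _
      rw [← h1]
      apply QuotientAddGroup.eq.mpr
      have h3 : -r q + m = m - r q := by abel
      rw [h3]
      exact h
    -- the structure constants
    let u : M ⧸ L → M ⧸ L → Qb := fun q₁ q₂ =>
      if r q₁ + r q₂ - c ∈ L then
        χ (r q₁ + r q₂ - c) * Bf χ c * (Bf χ (r q₁))⁻¹ * (Bf χ (r q₂))⁻¹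
      else 0
    have huP : ∀ q₁ q₂, u q₁ q₂ ∈ P := by
      intro q₁ q₂
      show (if r q₁ + r q₂ - c ∈ L then _ else _) ∈ P
      split_ifs with h
      · exact P.mul_mem _ _ (P.mul_mem _ _ (P.mul_mem _ _ (hchP _ _) (hBfP χ c)) (hBfinv χ _))
          (hBfinv χ _)
      · exact P.zero_mem
    have hmain : ∀ (m m' c₁ c₂ : M), m - c₁ ∈ L → m' - c₂ ∈ L →
        psi139 L Bg (m + m') (c, χ) =
          (if c₁ + c₂ - c ∈ L then
            χ (c₁ + c₂ - c) * Bf χ c * (Bf χ c₁)⁻¹ * (Bf χ c₂)⁻¹
          else 0) * psi139 L Bg m (c₁, χ) * psi139 L Bg m' (c₂, χ) := by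
      intro m m' c₁ c₂ h1 h2
      have hsum : m + m' - c = (m - c₁) + (m' - c₂) + (c₁ + c₂ - c) := by abel
      have hiff : m + m' - c ∈ L ↔ c₁ + c₂ - c ∈ L := by
        rw [hsum]
        exact L.add_mem_cancel_left (L.add_mem h1 h2)
      rw [psi139_of_mem Bg χ h1, psi139_of_mem Bg χ h2]
      by_cases h : m + m' - c ∈ L
      · have h' := hiff.mp h
        rw [psi139_of_mem Bg χ h, if_pos h', hsum, AddChar.map_add_eq_mul,
          AddChar.map_add_eq_mul]
        show _ * Bf χ c = _ * (_ * Bf χ c₁) * (_ * Bf χ c₂)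
        have := hBf0 χ c₁
        have := hBf0 χ c₂
        field_simp
      · have h' : c₁ + c₂ - c ∉ L := fun h' => h (hiff.mpr h')
        rw [psi139_of_not_mem Bg χ h, if_neg h', zero_mul, zero_mul]
    have hmem : (∑ q₁ : M ⧸ L, ∑ q₂ : M ⧸ L,
        algebraMap P (M × M → Qb) ⟨u q₁ q₂, huP q₁ q₂⟩ *
          (fun x : M × M => Ψ x.1 (r q₁, χ)) * (fun x : M × M => Ψ x.2 (r q₂, χ))) ∈
        Algebra.adjoin P ({f | ∃ j, f = fun x : M × M => Ψ x.1 j} ∪
          {f | ∃ j, f = fun x : M × M => Ψ x.2 j}) := by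
      refine Subalgebra.sum_mem _ fun q₁ _ => Subalgebra.sum_mem _ fun q₂ _ => ?_
      refine Subalgebra.mul_mem _ (Subalgebra.mul_mem _ (Subalgebra.algebraMap_mem _ _) ?_) ?_
      · exact Algebra.subset_adjoin (Or.inl ⟨(r q₁, χ), rfl⟩)
      · exact Algebra.subset_adjoin (Or.inr ⟨(r q₂, χ), rfl⟩)
    have heq : (fun x : M × M => Ψ (x.1 + x.2) (c, χ)) = ∑ q₁ : M ⧸ L, ∑ q₂ : M ⧸ L,
        algebraMap P (M × M → Qb) ⟨u q₁ q₂, huP q₁ q₂⟩ *
          (fun x : M × M => Ψ x.1 (r q₁, χ)) * (fun x : M × M => Ψ x.2 (r q₂, χ)) := by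
      funext ⟨m, m'⟩
      rw [Finset.sum_apply]
      simp only [Finset.sum_apply, Pi.mul_apply]
      rw [Finset.sum_eq_single (QuotientAddGroup.mk m : M ⧸ L)]
      · rw [Finset.sum_eq_single (QuotientAddGroup.mk m' : M ⧸ L)]
        · -- the main term
          exact hmain m m' _ _ (hr m) (hr m')
        · intro q₂ _ hq₂
          have h2 : m' - r q₂ ∉ L := fun h => hq₂ (hr' m' q₂ h)
          show _ * _ * psi139 L Bg m' (r q₂, χ) = 0
          rw [psi139_of_not_mem Bg χ h2, mul_zero]
        · intro h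
          exact absurd (Finset.mem_univ _) h
      · intro q₁ _ hq₁
        have h1 : m - r q₁ ∉ L := fun h => hq₁ (hr' m q₁ h)
        apply Finset.sum_eq_zero
        intro q₂ _
        show _ * psi139 L Bg m (r q₁, χ) * _ = 0
        rw [psi139_of_not_mem Bg χ h1, mul_zero, zero_mul]
      · intro h
        exact absurd (Finset.mem_univ _) h
    rw [heq]
    exact hmem

end Coord

end Fermat.Agent.S59.NMP.H139
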