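import Fermat.Agent.S59.NMP.Sel.Spec
import Fermat.Agent.S59.NMP.H139.PeuCoord
import Fermat.Agent.S59.H601.PeuFlat

/-!
# S59 / NMP / SEL (helper139), leaf (F): PEU ⟹ HOPF MODEL at a finite level

`peuHopf : Sel.PeuHopfStatement`.  Route (as `H601.peuFlat`): the unit Kummer eigenfunctions of the
finite level `V ⧸ I V` are a `S19.LocalCoordDatum` (`localCoordDatum139`); the landed unramified
descent (`S19.Unr.H992.unrStatement`) and ORD (`S19.H15.ordStatement`) give the Hopf model.
-/

set_option autoImplicit false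
set_option linter.unusedSectionVars false
set_option linter.unusedVariables false
set_option linter.style.haveILetI false

open IsLocalRing

namespace Fermat.Agent.S59.NMP.H139

open Fermat.Agent.S19 Fermat.Agent.S59.H601 Fermat.Agent.S59.H779 Fermat.Agent.S59.NMP.Sel

section Aux

variable {A : Type} [CommRing A] [IsLocalRing A]

/-- An ideal of finite colength in a Noetherian local ring contains a power of the maximal
ideal. -/
theorem exists_pow_le139 [IsNoetherianRing A] (I : Ideal A) (hI : Finite (A ⧸ I)) :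
    ∃ n : ℕ, maximalIdeal A ^ n ≤ I := by
  refine Ideal.exists_pow_le_of_le_radical_of_fg ?_ (IsNoetherian.noetherian _)
  intro x hx
  obtain ⟨a, b, hab, hEq⟩ : ∃ a b : ℕ, a < b ∧
      Ideal.Quotient.mk I (x ^ a) = Ideal.Quotient.mk I (x ^ b) := by
    have hninj : ¬ Function.Injective (fun k : ℕ => Ideal.Quotient.mk I (x ^ k)) :=
      not_injective_infinite_finite _
    rw [Function.Injective] at hninj
    push Not at hninj
    obtain ⟨a, b, hEq, hne⟩ := hninj
    rcases Nat.lt_or_gt_of_ne hne with h | h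
    · exact ⟨a, b, h, hEq⟩
    · exact ⟨b, a, h, hEq.symm⟩
  obtain ⟨c, rfl⟩ : ∃ c, b = a + (c + 1) := ⟨b - a - 1, by omega⟩
  have h1 : x ^ a * (1 - x ^ (c + 1)) ∈ I := by
    rw [← Ideal.Quotient.eq_zero_iff_mem, mul_sub, mul_one, ← pow_add, map_sub, hEq, sub_self]
  have hu : IsUnit (1 - x ^ (c + 1)) := by
    have hm : x ^ (c + 1) ∈ maximalIdeal A := Ideal.pow_mem_of_mem _ hx _ (by omega)
    by_contra hnu
    have h2 : 1 - x ^ (c + 1) ∈ maximalIdeal A := (mem_maximalIdeal _).mpr hnu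
    have h3 : (1 : A) ∈ maximalIdeal A := by
      have := Ideal.add_mem _ h2 hm
      rwa [sub_add_cancel] at this
    exact (Ideal.ne_top_iff_one _).mp (maximalIdeal.isMaximal A).ne_top h3
  refine ⟨a, ?_⟩
  obtain ⟨u, hu'⟩ := hu
  have h4 : x ^ a = x ^ a * (1 - x ^ (c + 1)) * ((u⁻¹ : Aˣ) : A) := by
    rw [mul_assoc, ← hu', Units.mul_inv, mul_one]
  rw [h4]
  exact Ideal.mul_mem_right _ _ h1

/-- The finite levels are finite. -/
theorem finite_lev139 (ρ : GaloisRepAdic A) (I : Ideal A) [Finite (A ⧸ I)] :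
    Finite (Lev ρ I) := by
  haveI : Module.Finite (A ⧸ I) (Lev ρ I) :=
    Module.Finite.of_restrictScalars_finite A (A ⧸ I) (Lev ρ I)
  exact Module.finite_of_finite (A ⧸ I)

/-- In an ordinary basis, the determinant is the eigenvalue on the line. -/
theorem det_ordinary139 {V : Type} [AddCommGroup V] [Module A V]
    (b : Module.Basis (Fin 2) A V) (f : Module.End A V) (x y : A)
    (h0 : f (b 0) = x • b 0) (h1 : f (b 1) = b 1 + y • b 0) : LinearMap.det f = x := by
  rw [← LinearMap.det_toMatrix b, Matrix.det_fin_two]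
  simp only [LinearMap.toMatrix_apply, h0, h1, map_add, map_smul, Module.Basis.repr_self,
    Finsupp.smul_apply, Finsupp.add_apply, Finsupp.single_apply, smul_eq_mul]
  simp

theorem levelAction_mk139 (ρ : GaloisRepAdic A) (I : Ideal A) (σ : GalQ) (v : ρ.V) :
    ρ.levelAction I σ (Submodule.Quotient.mk v) = Submodule.Quotient.mk (ρ.ρ σ v) := rfl

/-- Every element of `Gal(ℚ̄/ℚ)` acts on the `N`-th roots of unity by a power. -/
theorem exists_cyclo_exp139 (N : ℕ) [NeZero N] (σ : GalQ) :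
    ∃ a : ℕ, ∀ μ : Qb, μ ^ N = 1 → σ μ = μ ^ a := by
  haveI : NeZero ((N : ℕ) : Qb) := ⟨by
    have := NeZero.ne N
    exact_mod_cast this⟩
  obtain ⟨ζ, hζ⟩ := HasEnoughRootsOfUnity.exists_primitiveRoot Qb N
  have h1 : (σ ζ) ^ N = 1 := by rw [← map_pow, hζ.pow_eq_one, map_one]
  obtain ⟨a, -, ha⟩ := hζ.eq_pow_of_pow_eq_one h1
  refine ⟨a, fun μ hμ => ?_⟩
  obtain ⟨i, -, rfl⟩ := hζ.eq_pow_of_pow_eq_one hμ
  rw [map_pow, ← ha, ← pow_mul, ← pow_mul, mul_comm]

end Aux

/-- **(F) PEU ⟹ HOPF MODEL at a finite level.** -/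
theorem peuHopf : PeuHopfStatement := by
  intro p _ A _ _ _ ρ hdet P hP L hL I hIfin hpeu
  classical
  have hp : p.Prime := Fact.out
  haveI := hIfin
  haveI hfinM : Finite (Lev ρ I) := finite_lev139 ρ I
  have hPp : (p : Qb) ∈ P.nonunits := hP
  obtain ⟨k, hk⟩ := exists_pow_le139 I hIfin
  have hsm : (maximalIdeal A ^ k) • (⊤ : Submodule A ρ.V) ≤ I • (⊤ : Submodule A ρ.V) :=
    Submodule.smul_mono_left hk
  -- `p ^ k ∈ I`
  have hpkI : ((p ^ k : ℕ) : A) ∈ I := by
    apply hk
    rw [Nat.cast_pow]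
    exact Ideal.pow_mem_pow hdet.1 k
  let act : GalQ → Lev ρ I → Lev ρ I := fun σ x => ρ.levelAction I σ x
  have hact : IsContAddAction act :=
    { act_one := fun m => by
        obtain ⟨v, rfl⟩ := Submodule.Quotient.mk_surjective _ m
        show ρ.levelAction I 1 (Submodule.Quotient.mk v) = _
        rw [levelAction_mk139, map_one]
        rfl
      act_mul := fun σ τ m => by
        obtain ⟨v, rfl⟩ := Submodule.Quotient.mk_surjective _ m
        show ρ.levelAction I (σ * τ) (Submodule.Quotient.mk v) =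
          ρ.levelAction I σ (ρ.levelAction I τ (Submodule.Quotient.mk v))
        rw [levelAction_mk139, levelAction_mk139, levelAction_mk139, map_mul]
        rfl
      act_add := fun σ m m' => map_add (ρ.levelAction I σ) m m'
      cont := fun m => by
        obtain ⟨v, rfl⟩ := Submodule.Quotient.mk_surjective _ m
        obtain ⟨F, hF, h1⟩ := ρ.isAdicContinuous k
        refine ⟨F, hF, fun σ hσ => ?_⟩
        show ρ.levelAction I σ (Submodule.Quotient.mk v) = _
        rw [levelAction_mk139, Submodule.Quotient.eq]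
        exact hsm (h1 σ hσ v) }
  -- the line
  obtain ⟨b, hb⟩ : ∃ b : Module.Basis (Fin 2) A ρ.V, L = Submodule.span A {b 0} := hL.basis
  let LX : AddSubgroup (Lev ρ I) :=
    (L.map (Submodule.mkQ (I • (⊤ : Submodule A ρ.V)))).toAddSubgroup
  have hmemLX : ∀ w ∈ L, (Submodule.Quotient.mk w : Lev ρ I) ∈ LX := fun w hw =>
    Submodule.mem_map_of_mem (f := Submodule.mkQ (I • (⊤ : Submodule A ρ.V))) hw
  have hI' : ∀ σ, IsInertiaAt P σ → ∀ m, act σ m - m ∈ LX := by
    intro σ hσ m
    obtain ⟨v, rfl⟩ := Submodule.Quotient.mk_surjective _ m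
    show ρ.levelAction I σ (Submodule.Quotient.mk v) - Submodule.Quotient.mk v ∈ LX
    rw [levelAction_mk139, ← Submodule.Quotient.mk_sub]
    exact hmemLX _ (hL.inertia σ (mem_inertiaSubgroupIn_of_isInertiaAt601 hσ) v)
  have hpk0 : p ^ k ≠ 0 := pow_ne_zero _ hp.ne_zero
  haveI : NeZero (p ^ k) := ⟨hpk0⟩
  have hkill : ∀ w : ρ.V, (p ^ k) • (Submodule.Quotient.mk w : Lev ρ I) = 0 := by
    intro w
    rw [← Submodule.Quotient.mk_smul, Submodule.Quotient.mk_eq_zero,
      ← Nat.cast_smul_eq_nsmul A (p ^ k) w]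
    exact Submodule.smul_mem_smul hpkI Submodule.mem_top
  have hL' : ∀ σ, IsInertiaAt P σ → ∀ (χ : AddChar (Lev ρ I) Qb), ∀ l ∈ LX,
      χ (act σ l) = σ (χ l) := by
    intro σ hσ χ l hl
    have hσD := mem_decompositionSubgroup_of_isInertiaAt601 hσ
    have hσI := mem_inertiaSubgroupIn_of_isInertiaAt601 hσ
    obtain ⟨w, hw, rfl⟩ := hl
    have hw' : w ∈ L := hw
    have hb0 : b 0 ∈ L := by
      rw [hb]
      exact Submodule.mem_span_singleton_self _
    -- the eigenvalue on the line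
    have h0 := hL.stable σ hσD (b 0) hb0
    rw [hb, Submodule.mem_span_singleton] at h0
    obtain ⟨x, hx⟩ := h0
    have h1 := hL.inertia σ hσI (b 1)
    rw [hb, Submodule.mem_span_singleton] at h1
    obtain ⟨y, hy⟩ := h1
    have hf0 : (ρ.ρ σ) (b 0) = x • b 0 := hx.symm
    have hf1 : (ρ.ρ σ) (b 1) = b 1 + y • b 0 := by
      have : ρ.ρ σ (b 1) - b 1 = y • b 0 := hy.symm
      exact sub_eq_iff_eq_add'.mp this
    have hdetx : LinearMap.det (ρ.ρ σ) = x := det_ordinary139 b _ x y hf0 hf1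
    obtain ⟨a, ha⟩ := exists_cyclo_exp139 (p ^ k) σ
    have h2 := hdet.2 k σ a ha
    rw [hdetx] at h2
    have hxa : x - (a : A) ∈ I := by
      refine (Ideal.span_le.mpr ?_) h2
      intro z hz
      rw [Set.mem_singleton_iff] at hz
      rw [hz]
      exact hpkI
    rw [hb, Submodule.mem_span_singleton] at hw'
    obtain ⟨t, rfl⟩ := hw'
    -- the action on the line
    have hactl : act σ (Submodule.Quotient.mk (t • b 0) : Lev ρ I) =
        a • (Submodule.Quotient.mk (t • b 0) : Lev ρ I) := by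
      show ρ.levelAction I σ (Submodule.Quotient.mk (t • b 0)) = _
      rw [levelAction_mk139, map_smul, hf0, ← Submodule.Quotient.mk_smul, Submodule.Quotient.eq,
        ← Nat.cast_smul_eq_nsmul A a (t • b 0)]
      have h3 : t • x • b 0 - (a : A) • t • b 0 = (x - (a : A)) • (t • b 0) := by
        rw [sub_smul, smul_comm t x (b 0)]
      rw [h3]
      exact Submodule.smul_mem_smul hxa Submodule.mem_top
    have hroot : χ (Submodule.Quotient.mk (t • b 0) : Lev ρ I) ^ (p ^ k) = 1 := by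
      rw [← AddChar.map_nsmul_eq_pow, hkill, AddChar.map_zero_eq_one]
    show χ (act σ (Submodule.Quotient.mk (t • b 0) : Lev ρ I)) = _
    rw [hactl, AddChar.map_nsmul_eq_pow]
    exact (ha _ hroot).symm
  have hpeu' : ∀ (χ : AddChar (Lev ρ I) Qb) (c : Lev ρ I), ∃ B : Qb, P.valuation B = 1 ∧
      ∀ σ, IsInertiaAt P σ → σ B = χ (act σ c - c) * B := by
    intro χ c
    obtain ⟨B, hB, hBeq⟩ := hpeu χ c
    exact ⟨B, hB, fun σ hσ => hBeq σ (mem_inertiaSubgroupIn_of_isInertiaAt601 hσ)⟩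
  -- local coordinates, descent, ORD
  obtain ⟨D⟩ := localCoordDatum139 hact P hPp LX hI' hL' hpeu'
  obtain ⟨C⟩ := Fermat.Agent.S19.Unr.H992.unrStatement p (Lev ρ I) act hact D
  have hO := orderDatum_of_coordDatum hact.act_add C
  exact Fermat.Agent.S19.H15.ordStatement p (Lev ρ I) act hO

end Fermat.Agent.S59.NMP.H139
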