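import Fermat.Agent.S59.NMP.Sel.Spec
import Fermat.Agent.S59.NMP.Glue
import Fermat.Agent.S59.H659.Ord
import Fermat.Agent.S59.H649.OrdMatrix
import Fermat.Agent.S37.H99.FrobAt

/-!
# S59 / NMP / SEL (helper139): the ordinary line at a place `P | p` and its Frobenius scalar

* `ordLine_unique139` : with cyclotomic determinant (`p` odd) the ordinary line at `P` is unique
  (`L = range (ρ σ₀ - 1)` for an inertial `σ₀` with `ε(σ₀) ≢ 1 mod p`);
* `UnrFrobAtP ρ P p α` : `ρ` has an ordinary line at the place `P` on whose quotient the Frobenius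
  elements at `P` act by `α`; base change, invariance under equivalence, existence and
  uniqueness of `α`.
-/

set_option autoImplicit false
set_option linter.unusedSectionVars false
set_option linter.unusedVariables false
set_option linter.style.haveILetI false

open IsLocalRing
open scoped TensorProduct

namespace Fermat.Agent.S59.NMP.H139

open Fermat.Agent.S59.H649 (IsOrdLineAt Qb GQ)

section Lines

variable {A : Type} [CommRing A] [IsLocalRing A]

/-- In an ordinary basis, the determinant is the eigenvalue on the line. -/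
theorem det_ordLine139 {V : Type} [AddCommGroup V] [Module A V]
    (b : Module.Basis (Fin 2) A V) (f : Module.End A V) (x y : A)
    (h0 : f (b 0) = x • b 0) (h1 : f (b 1) = b 1 + y • b 0) : LinearMap.det f = x := by
  rw [← LinearMap.det_toMatrix b, Matrix.det_fin_two]
  simp only [LinearMap.toMatrix_apply, h0, h1, map_add, map_smul, Module.Basis.repr_self,
    Finsupp.smul_apply, Finsupp.add_apply, Finsupp.single_apply, smul_eq_mul]
  simp

/-- The ordinary line is the image of `ρ σ₀ - 1`. -/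
theorem ordLine_eq_range139 {p : ℕ} (hp : p.Prime) {ρ : GaloisRepAdic A}
    (hdet : ρ.DetIsCyclotomic p) {P : ValuationSubring Qb} {σ₀ : GQ}
    (hσ₀ : σ₀ ∈ P.inertiaSubgroupIn ℚ)
    (hcyc : ∀ a : ℕ, Fermat.Agent.S59.H659.IsCycExp p σ₀ a → ¬ a ≡ 1 [MOD p])
    {L : Submodule A ρ.V} (hL : IsOrdLineAt ρ P L) :
    L = LinearMap.range (ρ.ρ σ₀ - 1) := by
  obtain ⟨b, rfl⟩ := hL.basis
  have hb0 : b 0 ∈ Submodule.span A {b 0} := Submodule.mem_span_singleton_self _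
  obtain ⟨x, hx⟩ := Submodule.mem_span_singleton.mp
    (hL.stable σ₀ (Fermat.Agent.S59.H659.mem_decomposition_of_mem_inertia hσ₀) _ hb0)
  obtain ⟨y, hy⟩ := Submodule.mem_span_singleton.mp (hL.inertia σ₀ hσ₀ (b 1))
  have hdetx : LinearMap.det (ρ.ρ σ₀) = x :=
    det_ordLine139 b _ x y hx.symm (by rw [hy]; abel)
  obtain ⟨a, ha⟩ := Fermat.Agent.S59.H659.exists_isCycExp p hp.ne_zero σ₀
  have h1 := hdet.2 1 σ₀ a (by
    intro μ hμ
    rw [pow_one] at hμ
    exact ha μ hμ)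
  rw [hdetx] at h1
  have hxa : x - (a : A) ∈ maximalIdeal A := by
    obtain ⟨c, hc⟩ := Ideal.mem_span_singleton'.mp h1
    rw [← hc, pow_one]
    exact Ideal.mul_mem_left _ _ hdet.1
  have hu : IsUnit (x - 1) := by
    have h5 : IsUnit ((a : A) - 1) :=
      Fermat.Agent.S59.H659.isUnit_natCast_sub_one hp hdet.1 (hcyc a ha)
    by_contra hcon
    have h7 : x - 1 ∈ maximalIdeal A := hcon
    have h8 : (a : A) - 1 ∈ maximalIdeal A := by
      have := Ideal.sub_mem _ h7 hxa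
      have h9 : x - 1 - (x - (a : A)) = (a : A) - 1 := by ring
      rwa [h9] at this
    exact h8 h5
  apply le_antisymm
  · rw [Submodule.span_singleton_le_iff_mem]
    obtain ⟨u, hu'⟩ := hu
    refine ⟨((u⁻¹ : Aˣ) : A) • b 0, ?_⟩
    rw [LinearMap.sub_apply, map_smul, ← hx, Module.End.one_apply, ← smul_sub]
    have h9 : x • b 0 - b 0 = (u : A) • b 0 := by rw [hu', sub_smul, one_smul]
    rw [h9, smul_smul, Units.inv_mul, one_smul]
  · rintro _ ⟨w, rfl⟩
    rw [LinearMap.sub_apply, Module.End.one_apply]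
    exact hL.inertia σ₀ hσ₀ w

/-- **The ordinary line at `P` is unique** (cyclotomic determinant, `p` odd). -/
theorem ordLine_unique139 {p : ℕ} (hp : p.Prime) (hp2 : p ≠ 2) {ρ : GaloisRepAdic A}
    (hdet : ρ.DetIsCyclotomic p) {P : ValuationSubring Qb} (hP : P.LiesOverPrime p)
    {L₁ L₂ : Submodule A ρ.V} (h₁ : IsOrdLineAt ρ P L₁) (h₂ : IsOrdLineAt ρ P L₂) : L₁ = L₂ := by
  obtain ⟨σ₀, hσ₀, hcyc⟩ := Fermat.Agent.S59.H659.exists_inertia_cycExp_ne_one p hp hp2 P hP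
  rw [ordLine_eq_range139 hp hdet hσ₀ hcyc h₁, ordLine_eq_range139 hp hdet hσ₀ hcyc h₂]

/-- `ρ` has an ordinary line at the place `P` on whose quotient the Frobenius elements at `P`
act by `α`. -/
def UnrFrobAtP (ρ : GaloisRepAdic A) (P : ValuationSubring Qb) (p : ℕ) (α : A) : Prop :=
  ∃ L : Submodule A ρ.V, IsOrdLineAt ρ P L ∧
    ∀ σ : GQ, P.IsFrobeniusAt σ p → ∀ w : ρ.V, ρ.ρ σ w - α • w ∈ L

/-- The Frobenius scalar of an ordinary line. -/
theorem exists_frobScalar139 {p : ℕ} (hp : p.Prime) {ρ : GaloisRepAdic A}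
    {P : ValuationSubring Qb} (hP : P.LiesOverPrime p) {L : Submodule A ρ.V}
    (hL : IsOrdLineAt ρ P L) :
    ∃ a : A, ∀ σ : GQ, P.IsFrobeniusAt σ p → ∀ w : ρ.V, ρ.ρ σ w - a • w ∈ L := by
  obtain ⟨τ, hτ⟩ := Fermat.Agent.S37.H99.exists_isFrobeniusAt p hp P hP
  obtain ⟨b, rfl⟩ := hL.basis
  have hD := hL.stable
  have hI := hL.inertia
  have hτD : τ ∈ P.decompositionSubgroup ℚ := hτ.1
  set α : A := b.repr (ρ.ρ τ (b 1)) 1 with hα
  have hb0 : b 0 ∈ Submodule.span A {b 0} := Submodule.mem_span_singleton_self _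
  have key : ∀ v : ρ.V, ρ.ρ τ v - α • v ∈ Submodule.span A {b 0} := by
    intro v
    have hv : v = b.repr v 0 • b 0 + b.repr v 1 • b 1 := by
      conv_lhs => rw [← b.sum_repr v]
      rw [Fin.sum_univ_two]
    have h1 : ρ.ρ τ (b 1) - α • b 1 ∈ Submodule.span A {b 0} := by
      have h2 : ρ.ρ τ (b 1) = b.repr (ρ.ρ τ (b 1)) 0 • b 0 + α • b 1 := by
        conv_lhs => rw [← b.sum_repr (ρ.ρ τ (b 1))]
        rw [Fin.sum_univ_two]
      rw [h2, add_sub_cancel_right]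
      exact Submodule.smul_mem _ _ hb0
    have h0 : ρ.ρ τ (b 0) - α • b 0 ∈ Submodule.span A {b 0} :=
      Submodule.sub_mem _ (hD τ hτD _ hb0) (Submodule.smul_mem _ _ hb0)
    have : ρ.ρ τ v - α • v =
        b.repr v 0 • (ρ.ρ τ (b 0) - α • b 0) + b.repr v 1 • (ρ.ρ τ (b 1) - α • b 1) := by
      conv_lhs => rw [hv]
      simp only [map_add, map_smul, smul_add, smul_sub, smul_smul]
      rw [mul_comm α (b.repr v 0), mul_comm α (b.repr v 1)]
      abel
    rw [this]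
    exact Submodule.add_mem _ (Submodule.smul_mem _ _ h0) (Submodule.smul_mem _ _ h1)
  refine ⟨α, ?_⟩
  intro σ hσ v
  have hι := Fermat.Agent.Lib.Cheb.H956.mul_inv_mem_inertiaSubgroupIn hτ hσ
  have h1 := hI (σ * τ⁻¹) hι (ρ.ρ τ v)
  have h2 : ρ.ρ (σ * τ⁻¹) (ρ.ρ τ v) = ρ.ρ σ v := by
    rw [← Module.End.mul_apply, ← map_mul, inv_mul_cancel_right]
  rw [h2] at h1
  have := Submodule.add_mem _ h1 (key v)
  rwa [sub_add_sub_cancel] at this

/-- **Uniqueness of the Frobenius scalar.** -/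
theorem UnrFrobAtP.unique {p : ℕ} (hp : p.Prime) (hp2 : p ≠ 2) {ρ : GaloisRepAdic A}
    (hdet : ρ.DetIsCyclotomic p) {P : ValuationSubring Qb} (hP : P.LiesOverPrime p)
    {α₁ α₂ : A} (h₁ : UnrFrobAtP ρ P p α₁) (h₂ : UnrFrobAtP ρ P p α₂) : α₁ = α₂ := by
  obtain ⟨L₁, hL₁, hF₁⟩ := h₁
  obtain ⟨L₂, hL₂, hF₂⟩ := h₂
  obtain rfl : L₁ = L₂ := ordLine_unique139 hp hp2 hdet hP hL₁ hL₂
  obtain ⟨τ, hτ⟩ := Fermat.Agent.S37.H99.exists_isFrobeniusAt p hp P hP
  obtain ⟨b, rfl⟩ := hL₁.basis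
  have h1 := Submodule.sub_mem _ (hF₂ τ hτ (b 1)) (hF₁ τ hτ (b 1))
  have h2 : ρ.ρ τ (b 1) - α₂ • b 1 - (ρ.ρ τ (b 1) - α₁ • b 1) = (α₁ - α₂) • b 1 := by
    rw [sub_smul]
    abel
  rw [h2] at h1
  have h3 := Fermat.Agent.S59.H649.repr_one_of_mem_span b h1
  rw [map_smul, Finsupp.smul_apply, Module.Basis.repr_self, Finsupp.single_eq_same, smul_eq_mul,
    mul_one] at h3
  exact sub_eq_zero.mp h3

/-- Invariance under equivalence (same place). -/
theorem UnrFrobAtP.of_isEquiv {ρ₁ ρ₂ : GaloisRepAdic A} (he : ρ₁.IsEquiv ρ₂)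
    {P : ValuationSubring Qb} {p : ℕ} {α : A} (h : UnrFrobAtP ρ₁ P p α) :
    UnrFrobAtP ρ₂ P p α := by
  obtain ⟨e⟩ := he
  obtain ⟨L, hL, hF⟩ := h
  obtain ⟨b, rfl⟩ := hL.basis
  have hD := hL.stable
  have hI := hL.inertia
  have hmem : ∀ {u : ρ₁.V}, u ∈ Submodule.span A {b 0} →
      e.toLinearEquiv u ∈ Submodule.span A {e.toLinearEquiv (b 0)} := by
    intro u hu
    obtain ⟨a, rfl⟩ := Submodule.mem_span_singleton.mp hu
    rw [map_smul]
    exact Submodule.smul_mem _ _ (Submodule.mem_span_singleton_self _)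
  refine ⟨Submodule.span A {e.toLinearEquiv (b 0)}, ⟨⟨b.map e.toLinearEquiv, ?_⟩, ?_, ?_⟩, ?_⟩
  · rw [Module.Basis.map_apply]
  · intro σ hσ v hv
    obtain ⟨a, rfl⟩ := Submodule.mem_span_singleton.mp hv
    rw [map_smul, ← e.map_apply]
    exact Submodule.smul_mem _ _ (hmem (hD σ hσ _ (Submodule.mem_span_singleton_self _)))
  · intro σ hσ w
    have := hmem (hI σ hσ (e.toLinearEquiv.symm w))
    rwa [map_sub, e.map_apply, LinearEquiv.apply_symm_apply] at this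
  · intro σ hσ w
    have := hmem (hF σ hσ (e.toLinearEquiv.symm w))
    rwa [map_sub, e.map_apply, map_smul, LinearEquiv.apply_symm_apply] at this

/-- Base change. -/
theorem UnrFrobAtP.baseChangeAlong {B : Type} [CommRing B] [IsLocalRing B] (φ : A →+* B)
    (hφ : IsLocalHom φ) {ρ : GaloisRepAdic A} {P : ValuationSubring Qb} {p : ℕ} {α : A}
    (h : UnrFrobAtP ρ P p α) : UnrFrobAtP (ρ.baseChangeAlong φ hφ) P p (φ α) := by
  letI : Algebra A B := φ.toAlgebra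
  obtain ⟨L, hL, hF⟩ := h
  obtain ⟨b, rfl⟩ := hL.basis
  refine ⟨(Submodule.span B {(1 : B) ⊗ₜ[A] b 0} : Submodule B (B ⊗[A] ρ.V)),
    ⟨⟨b.baseChange B, Fermat.Agent.S56.H966.span_eq_span_baseChange φ b⟩, ?_, ?_⟩, ?_⟩
  · intro σ hσ v hv
    exact Fermat.Agent.S56.H966.baseChange_mem_span_of_mem φ (b 0) (ρ.ρ σ) (hL.stable σ hσ) v hv
  · intro σ hσ (w : B ⊗[A] ρ.V)
    have := Fermat.Agent.S56.H966.baseChange_sub_smul_mem φ (b 0) (ρ.ρ σ) 1
      (fun v => by rw [one_smul]; exact hL.inertia σ hσ v) w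
    rw [map_one, one_smul] at this
    exact this
  · intro σ hσ (w : B ⊗[A] ρ.V)
    exact Fermat.Agent.S56.H966.baseChange_sub_smul_mem φ (b 0) (ρ.ρ σ) α (hF σ hσ) w

/-- From the frozen `NMP.UnrFrobAt`. -/
theorem exists_unrFrobAtP_of139 {ρ : GaloisRepAdic A} {p : ℕ} {α : A}
    (h : Fermat.Agent.S59.NMP.UnrFrobAt ρ p α) :
    ∃ P : ValuationSubring Qb, P.LiesOverPrime p ∧ UnrFrobAtP ρ P p α := by
  obtain ⟨P, hP, L, hb, hD, hI, hF⟩ := h
  exact ⟨P, hP, L, ⟨hb, hD, hI⟩, hF⟩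

end Lines

end Fermat.Agent.S59.NMP.H139
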